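import Fermat.Agent.S25.H747.AbAlgDefs

/-!
# S25 / AB-ALG leaf C4: graph ideals commute with base change (helper311)

For `φ : B →ₐ[k] A` and `ψ : A →ₐ[k] A'` the graph ideal of `ψ ∘ φ` is the extension of the
graph ideal of `φ` along `A ⊗ B → A' ⊗ B`, and the induced semilinear map of ideals is a
base change (`0 → I → A ⊗ B → A → 0` is split over `A`).
-/

set_option autoImplicit false
set_option linter.unusedSectionVars false
set_option linter.style.haveILetI false
universe u
open scoped TensorProduct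

namespace Fermat.Agent.S25.H311

open Fermat.Agent.S25 Fermat.Agent.S25.H747

variable {k : Type u} [Field k] {B : Type u} [CommRing B] [Algebra k B]
  {A A' : Type u} [CommRing A] [Algebra k A] [CommRing A'] [Algebra k A']

@[simp] lemma tensorMapLeft_tmul (ψ : A →ₐ[k] A') (a : A) (b : B) :
    tensorMapLeft k ψ B (a ⊗ₜ[k] b) = ψ a ⊗ₜ[k] b := by
  simp [tensorMapLeft]

lemma mem_graphIdeal {φ : B →ₐ[k] A} {z : A ⊗[k] B} : z ∈ graphIdeal φ ↔ evalHom φ z = 0 :=
  Iff.rfl

lemma evalHom_tensorMapLeft (ψ : A →ₐ[k] A') (φ : B →ₐ[k] A) (z : A ⊗[k] B) :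
    evalHom (ψ.comp φ) (tensorMapLeft k ψ B z) = ψ (evalHom φ z) := by
  induction z using TensorProduct.induction_on with
  | zero => simp
  | tmul a b => simp
  | add x y hx hy => simp only [map_add, hx, hy]

/-- `δ b = 1 ⊗ b - φ b ⊗ 1`, an element of the graph ideal. -/
noncomputable def graphDelta (φ : B →ₐ[k] A) (b : B) : graphIdeal φ :=
  ⟨(1 : A) ⊗ₜ[k] b - φ b ⊗ₜ[k] (1 : B), by simp [mem_graphIdeal]⟩

@[simp] lemma coe_graphDelta (φ : B →ₐ[k] A) (b : B) :
    (graphDelta φ b : A ⊗[k] B) = (1 : A) ⊗ₜ[k] b - φ b ⊗ₜ[k] (1 : B) := rfl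

lemma graphDelta_add (φ : B →ₐ[k] A) (b b' : B) :
    graphDelta φ (b + b') = graphDelta φ b + graphDelta φ b' := by
  ext
  simp only [coe_graphDelta, Submodule.coe_add, map_add, TensorProduct.tmul_add,
    TensorProduct.add_tmul]
  abel

lemma graphDelta_smul (φ : B →ₐ[k] A) (c : k) (b : B) :
    graphDelta φ (c • b) = (algebraMap k (A ⊗[k] B) c) • graphDelta φ b := by
  ext
  simp only [coe_graphDelta, Submodule.coe_smul, map_smul, smul_eq_mul, mul_sub,
    Algebra.TensorProduct.algebraMap_apply, Algebra.TensorProduct.tmul_mul_tmul, mul_one,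
    one_mul]
  rw [TensorProduct.tmul_smul, TensorProduct.smul_tmul', Algebra.smul_def c (1 : A), mul_one,
    Algebra.smul_def]

lemma graphDelta_mul (φ : B →ₐ[k] A) (b₀ b : B) :
    graphDelta φ (b₀ * b) =
      ((1 : A) ⊗ₜ[k] b₀) • graphDelta φ b + (φ b ⊗ₜ[k] (1 : B)) • graphDelta φ b₀ := by
  ext
  simp only [coe_graphDelta, Submodule.coe_add, Submodule.coe_smul, smul_eq_mul, mul_sub,
    Algebra.TensorProduct.tmul_mul_tmul, mul_one, one_mul, map_mul]
  rw [mul_comm (φ b) (φ b₀)]
  abel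

/-- `z - ev z ⊗ 1` for `z` a pure tensor. -/
lemma tmul_sub_eval (φ : B →ₐ[k] A) (a : A) (b : B) :
    a ⊗ₜ[k] b - (evalHom φ (a ⊗ₜ[k] b)) ⊗ₜ[k] (1 : B) =
      (a ⊗ₜ[k] (1 : B)) * (graphDelta φ b : A ⊗[k] B) := by
  simp only [evalHom_tmul, coe_graphDelta, mul_sub, Algebra.TensorProduct.tmul_mul_tmul, mul_one,
    one_mul]

lemma sub_eval_mem_map (ψ : A →ₐ[k] A') (φ : B →ₐ[k] A) (z : A' ⊗[k] B) :
    z - (evalHom (ψ.comp φ) z) ⊗ₜ[k] (1 : B) ∈ (graphIdeal φ).map (tensorMapLeft k ψ B) := by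
  induction z using TensorProduct.induction_on with
  | zero => simp
  | tmul a b =>
    rw [tmul_sub_eval]
    refine Ideal.mul_mem_left _ _ ?_
    have h : (graphDelta (ψ.comp φ) b : A' ⊗[k] B) =
        tensorMapLeft k ψ B (graphDelta φ b : A ⊗[k] B) := by
      simp
    rw [h]
    exact Ideal.mem_map_of_mem _ (graphDelta φ b).2
  | add x y hx hy =>
    have h : x + y - (evalHom (ψ.comp φ) (x + y)) ⊗ₜ[k] (1 : B) =
        (x - (evalHom (ψ.comp φ) x) ⊗ₜ[k] (1 : B)) +
          (y - (evalHom (ψ.comp φ) y) ⊗ₜ[k] (1 : B)) := by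
      rw [map_add, TensorProduct.add_tmul]
      abel
    rw [h]
    exact add_mem hx hy

/-- **C4.** Graph ideals commute with base change (split exact sequence). -/
theorem graphIdeal_map (ψ : A →ₐ[k] A') (φ : B →ₐ[k] A) :
    (graphIdeal φ).map (tensorMapLeft k ψ B) = graphIdeal (ψ.comp φ) := by
  apply le_antisymm
  · rw [Ideal.map_le_iff_le_comap]
    intro z hz
    rw [Ideal.mem_comap, mem_graphIdeal, evalHom_tensorMapLeft, mem_graphIdeal.mp hz, map_zero]
  · intro z hz
    have h := sub_eval_mem_map ψ φ z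
    rwa [mem_graphIdeal.mp hz, TensorProduct.zero_tmul, sub_zero] at h

/-- The `A`-linear projection `z ↦ z - ev z ⊗ 1` of `A ⊗ B` onto the graph ideal. -/
noncomputable def graphProj (φ : B →ₐ[k] A) (z : A ⊗[k] B) : graphIdeal φ :=
  ⟨z - (evalHom φ z) ⊗ₜ[k] (1 : B), by simp [mem_graphIdeal]⟩

@[simp] lemma coe_graphProj (φ : B →ₐ[k] A) (z : A ⊗[k] B) :
    (graphProj φ z : A ⊗[k] B) = z - (evalHom φ z) ⊗ₜ[k] (1 : B) := rfl

lemma graphProj_zero (φ : B →ₐ[k] A) : graphProj φ 0 = 0 := by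
  ext; simp

lemma graphProj_add (φ : B →ₐ[k] A) (z w : A ⊗[k] B) :
    graphProj φ (z + w) = graphProj φ z + graphProj φ w := by
  ext
  simp only [coe_graphProj, Submodule.coe_add, map_add, TensorProduct.add_tmul]
  abel

lemma graphProj_tmul (φ : B →ₐ[k] A) (a : A) (b : B) :
    graphProj φ (a ⊗ₜ[k] b) = (a ⊗ₜ[k] (1 : B)) • graphDelta φ b := by
  ext
  rw [coe_graphProj, tmul_sub_eval, Submodule.coe_smul, smul_eq_mul]

lemma graphProj_of_mem (φ : B →ₐ[k] A) {z : A ⊗[k] B} (hz : z ∈ graphIdeal φ) :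
    graphProj φ z = ⟨z, hz⟩ := by
  ext
  rw [coe_graphProj, mem_graphIdeal.mp hz, TensorProduct.zero_tmul, sub_zero]

lemma graphDelta_comp (ψ : A →ₐ[k] A') (φ : B →ₐ[k] A) (b : B) :
    graphDelta (ψ.comp φ) b =
      idealMapₛₗ (tensorMapLeft k ψ B) (graphIdeal φ) (graphIdeal (ψ.comp φ))
        (graphIdeal_map ψ φ).le (graphDelta φ b) := by
  ext
  simp

section Extend

variable (ψ : A →ₐ[k] A') (φ : B →ₐ[k] A)
  {Q : Type u} [AddCommMonoid Q] [Module (A' ⊗[k] B) Q]
  (g : graphIdeal φ →ₛₗ[tensorMapLeft k ψ B] Q)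

/-- The additive extension `G (a' ⊗ b) = (a' ⊗ 1) • g (δ b)`. -/
noncomputable def graphExt : A' ⊗[k] B →+ Q :=
  TensorProduct.liftAddHom
    { toFun := fun a' : A' =>
        { toFun := fun b : B => (a' ⊗ₜ[k] (1 : B)) • g (graphDelta φ b)
          map_zero' := by
            have h : graphDelta φ (0 : B) = 0 := by ext; simp
            rw [h, map_zero, smul_zero]
          map_add' := fun b b' => by rw [graphDelta_add, map_add, smul_add] }
      map_zero' := by
        apply AddMonoidHom.ext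
        intro b
        simp only [AddMonoidHom.coe_mk, ZeroHom.coe_mk, TensorProduct.zero_tmul, zero_smul,
          AddMonoidHom.zero_apply]
      map_add' := fun a a' => by
        apply AddMonoidHom.ext
        intro b
        simp only [AddMonoidHom.coe_mk, ZeroHom.coe_mk, AddMonoidHom.add_apply,
          TensorProduct.add_tmul, add_smul] }
    (fun c a' b => by
      simp only [AddMonoidHom.coe_mk, ZeroHom.coe_mk]
      rw [graphDelta_smul, LinearMap.map_smulₛₗ, smul_smul]
      congr 1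
      simp only [Algebra.TensorProduct.algebraMap_apply, tensorMapLeft_tmul,
        Algebra.TensorProduct.tmul_mul_tmul, mul_one, AlgHom.commutes]
      rw [Algebra.smul_def, mul_comm])

@[simp] lemma graphExt_tmul (a' : A') (b : B) :
    graphExt ψ φ g (a' ⊗ₜ[k] b) = (a' ⊗ₜ[k] (1 : B)) • g (graphDelta φ b) := by
  simp [graphExt]

lemma graphExt_mul_left (a₀ : A') (z : A' ⊗[k] B) :
    graphExt ψ φ g ((a₀ ⊗ₜ[k] (1 : B)) * z) = (a₀ ⊗ₜ[k] (1 : B)) • graphExt ψ φ g z := by
  induction z using TensorProduct.induction_on with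
  | zero => simp
  | tmul a b =>
    rw [Algebra.TensorProduct.tmul_mul_tmul, one_mul, graphExt_tmul, graphExt_tmul, smul_smul,
      Algebra.TensorProduct.tmul_mul_tmul, one_mul]
  | add x y hx hy => rw [mul_add, map_add, map_add, hx, hy, smul_add]

lemma graphExt_mul_right (b₀ : B) (z : A' ⊗[k] B) :
    graphExt ψ φ g (((1 : A') ⊗ₜ[k] b₀) * z) = ((1 : A') ⊗ₜ[k] b₀) • graphExt ψ φ g z
      + ((evalHom (ψ.comp φ) z) ⊗ₜ[k] (1 : B)) • g (graphDelta φ b₀) := by
  induction z using TensorProduct.induction_on with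
  | zero => simp
  | tmul a b =>
    rw [Algebra.TensorProduct.tmul_mul_tmul, one_mul, graphExt_tmul, graphExt_tmul,
      graphDelta_mul, map_add, LinearMap.map_smulₛₗ, LinearMap.map_smulₛₗ, smul_add,
      tensorMapLeft_tmul, tensorMapLeft_tmul, map_one, smul_smul, smul_smul, smul_smul,
      evalHom_tmul, mul_comm ((1 : A') ⊗ₜ[k] b₀)]
    congr 2
    rw [Algebra.TensorProduct.tmul_mul_tmul, mul_one, AlgHom.comp_apply]
  | add x y hx hy =>
    rw [mul_add, map_add, map_add, hx, hy, smul_add, map_add, TensorProduct.add_tmul, add_smul]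
    abel

lemma graphExt_mul_of_mem (r : A' ⊗[k] B) {z : A' ⊗[k] B} (hz : z ∈ graphIdeal (ψ.comp φ)) :
    graphExt ψ φ g (r * z) = r • graphExt ψ φ g z := by
  induction r using TensorProduct.induction_on with
  | zero => simp
  | tmul a b =>
    have h : a ⊗ₜ[k] b = (a ⊗ₜ[k] (1 : B)) * ((1 : A') ⊗ₜ[k] b) := by
      rw [Algebra.TensorProduct.tmul_mul_tmul, mul_one, one_mul]
    rw [h, mul_assoc, graphExt_mul_left, graphExt_mul_right, mem_graphIdeal.mp hz,
      TensorProduct.zero_tmul, zero_smul, add_zero, smul_smul]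
  | add x y hx hy => rw [add_mul, map_add, hx, hy, add_smul]

lemma graphExt_map (r : A ⊗[k] B) :
    graphExt ψ φ g (tensorMapLeft k ψ B r) = g (graphProj φ r) := by
  induction r using TensorProduct.induction_on with
  | zero => simp [graphProj_zero]
  | tmul a b =>
    rw [tensorMapLeft_tmul, graphExt_tmul, graphProj_tmul, LinearMap.map_smulₛₗ,
      tensorMapLeft_tmul]
  | add x y hx hy => rw [map_add, map_add, hx, hy, graphProj_add, map_add]

/-- the extension of `g` to the graph ideal of `ψ ∘ φ` -/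
noncomputable def graphLift : graphIdeal (ψ.comp φ) →ₗ[A' ⊗[k] B] Q where
  toFun z := graphExt ψ φ g z.1
  map_add' z w := by simp
  map_smul' r z := by
    simp only [RingHom.id_apply, Submodule.coe_smul, smul_eq_mul]
    exact graphExt_mul_of_mem ψ φ g r z.2

lemma graphLift_apply (x : graphIdeal φ) :
    graphLift ψ φ g (idealMapₛₗ (tensorMapLeft k ψ B) (graphIdeal φ) (graphIdeal (ψ.comp φ))
        (graphIdeal_map ψ φ).le x) = g x := by
  change graphExt ψ φ g (tensorMapLeft k ψ B x.1) = g x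
  rw [graphExt_map, graphProj_of_mem φ x.2]

lemma graphLift_unique (g' : graphIdeal (ψ.comp φ) →ₗ[A' ⊗[k] B] Q)
    (h : ∀ x : graphIdeal φ, g' (idealMapₛₗ (tensorMapLeft k ψ B) (graphIdeal φ)
      (graphIdeal (ψ.comp φ)) (graphIdeal_map ψ φ).le x) = g x) :
    g' = graphLift ψ φ g := by
  have key : ∀ z : A' ⊗[k] B, g' (graphProj (ψ.comp φ) z) = graphExt ψ φ g z := by
    intro z
    induction z using TensorProduct.induction_on with
    | zero => simp [graphProj_zero]
    | tmul a b =>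
      rw [graphProj_tmul, map_smul, graphDelta_comp, h, graphExt_tmul]
    | add x y hx hy => rw [graphProj_add, map_add, hx, hy, map_add]
  apply LinearMap.ext
  intro z
  have h2 := key z.1
  rw [graphProj_of_mem _ z.2] at h2
  exact h2

end Extend

/-- **C4.** The semilinear map of graph ideals induced by a base change `ψ : A → A'` is a
base change. -/
theorem graphIdeal_isSemilinearBaseChange (ψ : A →ₐ[k] A') (φ : B →ₐ[k] A) :
    IsSemilinearBaseChange (tensorMapLeft k ψ B)
      (idealMapₛₗ (tensorMapLeft k ψ B) (graphIdeal φ) (graphIdeal (ψ.comp φ))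
        (graphIdeal_map ψ φ).le) := by
  unfold IsSemilinearBaseChange
  letI alg : Algebra (A ⊗[k] B) (A' ⊗[k] B) := (tensorMapLeft k ψ B).toAlgebra
  apply IsBaseChange.of_lift_unique
  intro Q _ _ _ _ g
  let gs : graphIdeal φ →ₛₗ[tensorMapLeft k ψ B] Q :=
    { toFun := fun x => g x
      map_add' := fun x y => g.map_add x y
      map_smul' := fun r x => by
        rw [g.map_smul]
        exact (algebraMap_smul (A' ⊗[k] B) r (g x)).symm }
  refine ⟨graphLift ψ φ gs, ?_, ?_⟩
  · apply LinearMap.ext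
    intro x
    exact graphLift_apply ψ φ gs x
  · intro g' hg'
    exact graphLift_unique ψ φ gs g' (fun x => congrArg (fun f => f x) hg')

end Fermat.Agent.S25.H311
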