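import Fermat.Agent.S25.H747.AbAlgDefs
import Fermat.Agent.S25.H431.Diagonal
import Fermat.Agent.S25.H567.TensorDomain
import Fermat.Agent.S25.H11.HilbDiv

/-!
# S25 / AB-ALG leaf C2: graph ideals are invertible (helper311)

For an `A`-valued point `φ : B →ₐ[k] A` of a smooth affine curve `Spec B`, the ideal of its
graph `ker (A ⊗[k] B → A)` is an invertible `A ⊗[k] B`-module.  Assembly of H2 (diagonal,
`H431.diagonal_invertible`) and H3 (Hilb = Div, `H11.ker_invertible_of_finite_projective`).
-/

set_option autoImplicit false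
universe u
open scoped TensorProduct

namespace Fermat.Agent.S25.H311

open Fermat.Agent.S25 Fermat.Agent.S25.H747

section General

variable {k : Type u} [Field k] {B : Type u} [CommRing B] [Algebra k B]
  {A : Type u} [CommRing A] [Algebra k A]

theorem evalHom_surjective (φ : B →ₐ[k] A) : Function.Surjective (evalHom φ) := fun a =>
  ⟨a ⊗ₜ[k] 1, by simp⟩

/-- The graph ideal of a point is invertible as soon as the diagonal ideal of `B` is. -/
theorem graphIdeal_invertible_of_diagonal
    [Module.Invertible (B ⊗[k] B) (KaehlerDifferential.ideal k B)] (φ : B →ₐ[k] A) :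
    Module.Invertible (A ⊗[k] B) (graphIdeal φ) :=
  H11.ker_invertible_of_finite_projective k B A A (evalHom φ) (evalHom_surjective φ)

/-- The diagonal ideal of a smooth affine curve over an algebraically closed field is
invertible (H2, in the form used for curve charts). -/
theorem diagonal_invertible_of_smooth [IsAlgClosed k] [IsDomain B] (hs : Algebra.Smooth k B)
    (hω : Module.Invertible B Ω[B⁄k]) :
    Module.Invertible (B ⊗[k] B) (KaehlerDifferential.ideal k B) := by
  haveI : Algebra.FinitePresentation k B := hs.finitePresentation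
  haveI : IsDomain (B ⊗[k] B) := H567.isDomain_tensorProduct_of_isAlgClosed k B B
  exact H431.diagonal_invertible (k := k) (B := B)

/-- Graph ideals on a smooth affine curve over an algebraically closed field are invertible. -/
theorem graphIdeal_invertible_of_smooth [IsAlgClosed k] [IsDomain B] (hs : Algebra.Smooth k B)
    (hω : Module.Invertible B Ω[B⁄k]) (φ : B →ₐ[k] A) :
    Module.Invertible (A ⊗[k] B) (graphIdeal φ) := by
  haveI := diagonal_invertible_of_smooth hs hω
  exact graphIdeal_invertible_of_diagonal φ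

end General

section Curve

variable {k : Type u} [Field k] [IsAlgClosed k]
  {B₀ B₁ B₀₁ : Type u} [CommRing B₀] [CommRing B₁] [CommRing B₀₁]
  [Algebra k B₀] [Algebra k B₁] [Algebra k B₀₁] [Algebra B₀ B₀₁] [Algebra B₁ B₀₁]
  [IsScalarTower k B₀ B₀₁] [IsScalarTower k B₁ B₀₁]
  {x : B₀} {y : B₁} {e : B₁ →ₐ[k] k}

/-- **C2.** Graph ideals are invertible (H2 diagonal + H3 Hilb = Div). -/
theorem graphIdeal_invertible₀ (hC : IsCurveChart k B₀ B₁ B₀₁ x y e)
    (A : Type u) [CommRing A] [Algebra k A] (φ : B₀ →ₐ[k] A) :
    Module.Invertible (A ⊗[k] B₀) (graphIdeal φ) :=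
  haveI := hC.isDomain₀
  graphIdeal_invertible_of_smooth hC.smooth₀ hC.omega₀ φ

theorem graphIdeal_invertible₁ (hC : IsCurveChart k B₀ B₁ B₀₁ x y e)
    (A : Type u) [CommRing A] [Algebra k A] (φ : B₁ →ₐ[k] A) :
    Module.Invertible (A ⊗[k] B₁) (graphIdeal φ) :=
  haveI := hC.isDomain₁
  graphIdeal_invertible_of_smooth hC.smooth₁ hC.omega₁ φ

end Curve

end Fermat.Agent.S25.H311
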