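import Fermat.Agent.S25.H747.AbCartier
import Fermat.Agent.S25.H311.GraphBC

/-!
# S25 / AB-ALG leaf C5: the three ideals of a chart point commute with base change (helper311)

`ptI₀`, `ptI₁`, `ptI₀₁` of `H747/AbAlgDefs.lean` are compatible with `tensorMapLeft k ψ _`.
Inputs: C4 (`graphIdeal_map`), C1 (`H747.isLocalization_away_tensor`), H6
(`H851.map_contr_baseChange`, `H851.exists_mem_contr_isCoprime`).
-/

set_option autoImplicit false
set_option linter.unusedSectionVars false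
universe u
open scoped TensorProduct

namespace Fermat.Agent.S25.H311

open Fermat.Agent.S25 Fermat.Agent.S25.H747

section Square

variable {k : Type u} [Field k] {A A' : Type u} [CommRing A] [Algebra k A] [CommRing A']
  [Algebra k A'] {B B' : Type u} [CommRing B] [CommRing B'] [Algebra k B] [Algebra k B']
  [Algebra B B'] [IsScalarTower k B B']

/-- `tensorMapLeft` is a morphism of cospans. -/
theorem tensorMapLeft_comp_algebraMap (ψ : A →ₐ[k] A') :
    (tensorMapLeft k ψ B').comp (algebraMap (A ⊗[k] B) (A ⊗[k] B')) =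
      (algebraMap (A' ⊗[k] B) (A' ⊗[k] B')).comp (tensorMapLeft k ψ B) := by
  apply RingHom.ext
  intro z
  induction z using TensorProduct.induction_on with
  | zero => simp
  | tmul a b =>
    simp only [RingHom.comp_apply, algebraMap_tensor_apply, tensorMapLeft_tmul]
  | add x y hx hy => simp only [map_add, hx, hy]

end Square

section Curve

variable {k : Type u} [Field k] [IsAlgClosed k]
  {B₀ B₁ B₀₁ : Type u} [CommRing B₀] [CommRing B₁] [CommRing B₀₁]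
  [Algebra k B₀] [Algebra k B₁] [Algebra k B₀₁] [Algebra B₀ B₀₁] [Algebra B₁ B₀₁]
  [IsScalarTower k B₀ B₀₁] [IsScalarTower k B₁ B₀₁]
  {x : B₀} {y : B₁} {e : B₁ →ₐ[k] k}

/-- Contraction to the chart `B₀` of the graph ideal of a point of `Spec B₁` commutes with
base change. -/
theorem contr_graphIdeal_map₀ (hC : IsCurveChart k B₀ B₁ B₀₁ x y e)
    {A A' : Type u} [CommRing A] [Algebra k A] [CommRing A'] [Algebra k A']
    (ψ : A →ₐ[k] A') (φ : B₁ →ₐ[k] A) :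
    (H851.contr (A ⊗[k] B₀) (A ⊗[k] B₀₁) (graphIdeal φ)).map (tensorMapLeft k ψ B₀) =
      H851.contr (A' ⊗[k] B₀) (A' ⊗[k] B₀₁) (graphIdeal (ψ.comp φ)) := by
  have := hC.away₀
  have l₀ := isLocalization_away_tensor (k := k) A B₀ B₀₁ x
  have l₀' : IsLocalization.Away (tensorMapLeft k ψ B₀ ((1 : A) ⊗ₜ[k] x)) (A' ⊗[k] B₀₁) := by
    rw [tensorMapLeft_tmul, map_one]
    exact isLocalization_away_tensor (k := k) A' B₀ B₀₁ x
  obtain ⟨u, hu, r, hr⟩ := H851.exists_mem_contr_isCoprime (A := A) (R0 := A ⊗[k] B₁)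
    (R1 := A ⊗[k] B₀) (R01 := A ⊗[k] B₀₁) ((1 : A) ⊗ₜ[k] y) ((1 : A) ⊗ₜ[k] x)
    (chart_mul_eq_one' hC A) (graphIdeal φ)
  have hc : IsCoprime u ((1 : A) ⊗ₜ[k] x) := ⟨1, -r, by rw [hr]; ring⟩
  rw [H851.map_contr_baseChange ((1 : A) ⊗ₜ[k] x) (tensorMapLeft k ψ B₁) (tensorMapLeft k ψ B₀)
    (tensorMapLeft k ψ B₀₁) (tensorMapLeft_comp_algebraMap ψ) (tensorMapLeft_comp_algebraMap ψ)
    (graphIdeal φ) hu hc, graphIdeal_map]

/-- Contraction to the chart `B₁` of the graph ideal of a point of `Spec B₀` commutes with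
base change. -/
theorem contr_graphIdeal_map₁ (hC : IsCurveChart k B₀ B₁ B₀₁ x y e)
    {A A' : Type u} [CommRing A] [Algebra k A] [CommRing A'] [Algebra k A']
    (ψ : A →ₐ[k] A') (φ : B₀ →ₐ[k] A) :
    (H851.contr (A ⊗[k] B₁) (A ⊗[k] B₀₁) (graphIdeal φ)).map (tensorMapLeft k ψ B₁) =
      H851.contr (A' ⊗[k] B₁) (A' ⊗[k] B₀₁) (graphIdeal (ψ.comp φ)) := by
  have := hC.away₁
  have l₁ := isLocalization_away_tensor (k := k) A B₁ B₀₁ y
  have l₁' : IsLocalization.Away (tensorMapLeft k ψ B₁ ((1 : A) ⊗ₜ[k] y)) (A' ⊗[k] B₀₁) := by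
    rw [tensorMapLeft_tmul, map_one]
    exact isLocalization_away_tensor (k := k) A' B₁ B₀₁ y
  obtain ⟨u, hu, r, hr⟩ := H851.exists_mem_contr_isCoprime (A := A) (R0 := A ⊗[k] B₀)
    (R1 := A ⊗[k] B₁) (R01 := A ⊗[k] B₀₁) ((1 : A) ⊗ₜ[k] x) ((1 : A) ⊗ₜ[k] y)
    (chart_mul_eq_one hC A) (graphIdeal φ)
  have hc : IsCoprime u ((1 : A) ⊗ₜ[k] y) := ⟨1, -r, by rw [hr]; ring⟩
  rw [H851.map_contr_baseChange ((1 : A) ⊗ₜ[k] y) (tensorMapLeft k ψ B₀) (tensorMapLeft k ψ B₁)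
    (tensorMapLeft k ψ B₀₁) (tensorMapLeft_comp_algebraMap ψ) (tensorMapLeft_comp_algebraMap ψ)
    (graphIdeal φ) hu hc, graphIdeal_map]

/-- **C5.** The three ideals of a chart point commute with base change. -/
theorem ptI₀_map (hC : IsCurveChart k B₀ B₁ B₀₁ x y e)
    {A A' : Type u} [CommRing A] [Algebra k A] [CommRing A'] [Algebra k A']
    (ψ : A →ₐ[k] A') (P : H746.ChartPt k B₀ B₁ A) :
    (ptI₀ B₀₁ P).map (tensorMapLeft k ψ B₀) = ptI₀ B₀₁ (P.map ψ) := by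
  rcases P with φ | φ
  · exact graphIdeal_map ψ φ
  · exact contr_graphIdeal_map₀ hC ψ φ

theorem ptI₁_map (hC : IsCurveChart k B₀ B₁ B₀₁ x y e)
    {A A' : Type u} [CommRing A] [Algebra k A] [CommRing A'] [Algebra k A']
    (ψ : A →ₐ[k] A') (P : H746.ChartPt k B₀ B₁ A) :
    (ptI₁ B₀₁ P).map (tensorMapLeft k ψ B₁) = ptI₁ B₀₁ (P.map ψ) := by
  rcases P with φ | φ
  · exact contr_graphIdeal_map₁ hC ψ φ
  · exact graphIdeal_map ψ φ

theorem ptI₀₁_map (hC : IsCurveChart k B₀ B₁ B₀₁ x y e)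
    {A A' : Type u} [CommRing A] [Algebra k A] [CommRing A'] [Algebra k A']
    (ψ : A →ₐ[k] A') (P : H746.ChartPt k B₀ B₁ A) :
    (ptI₀₁ B₀₁ P).map (tensorMapLeft k ψ B₀₁) = ptI₀₁ B₀₁ (P.map ψ) := by
  rcases P with φ | φ
  · change ((graphIdeal φ).map (algebraMap (A ⊗[k] B₀) (A ⊗[k] B₀₁))).map
      (tensorMapLeft k ψ B₀₁) = (graphIdeal (ψ.comp φ)).map
        (algebraMap (A' ⊗[k] B₀) (A' ⊗[k] B₀₁))
    rw [Ideal.map_map, tensorMapLeft_comp_algebraMap, ← Ideal.map_map, graphIdeal_map]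
  · change ((graphIdeal φ).map (algebraMap (A ⊗[k] B₁) (A ⊗[k] B₀₁))).map
      (tensorMapLeft k ψ B₀₁) = (graphIdeal (ψ.comp φ)).map
        (algebraMap (A' ⊗[k] B₁) (A' ⊗[k] B₀₁))
    rw [Ideal.map_map, tensorMapLeft_comp_algebraMap, ← Ideal.map_map, graphIdeal_map]

end Curve

end Fermat.Agent.S25.H311
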