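import Mathlib.Algebra.Module.Projective
import Mathlib.LinearAlgebra.Prod
import Mathlib.Algebra.Module.Submodule.EqLocus
import Mathlib.Algebra.Module.Submodule.Range
import Mathlib.Algebra.Module.Submodule.Equiv

/-!
# Schanuel's lemma (S25, block HILB, leaf H0a)

If `0 → K → P → M → 0` and `0 → K' → P' → M → 0` are exact with `P`, `P'` projective, then
`K × P' ≃ K' × P`.
-/

set_option autoImplicit false

universe u v w

namespace Fermat.Agent.S25.H311

variable {R : Type u} [Ring R]

section split

variable {X : Type v} {P : Type w} [AddCommGroup X] [Module R X] [AddCommGroup P] [Module R P]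

/-- a surjection with a section splits: `X ≃ ker f × P` -/
def equivKerProd (f : X →ₗ[R] P) (s : P →ₗ[R] X) (h : ∀ p, f (s p) = p) :
    X ≃ₗ[R] (LinearMap.ker f × P) where
  toFun x := (⟨x - s (f x), by simp [LinearMap.mem_ker, h]⟩, f x)
  map_add' x y := by
    ext
    · simp only [map_add, Prod.mk_add_mk, Submodule.coe_add]
      abel
    · simp
  map_smul' c x := by
    ext
    · simp [smul_sub]
    · simp
  invFun kp := kp.1 + s kp.2
  left_inv x := by simp
  right_inv kp := by
    obtain ⟨⟨k, hk⟩, p⟩ := kp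
    have hk' : f k = 0 := hk
    ext
    · simp [hk', h]
    · simp [hk', h]

end split

variable {K K' P P' M : Type*}
  [AddCommGroup K] [Module R K] [AddCommGroup K'] [Module R K']
  [AddCommGroup P] [Module R P] [AddCommGroup P'] [Module R P']
  [AddCommGroup M] [Module R M]

/-- the fibre product `P ×_M P'` -/
def fibreProd (π : P →ₗ[R] M) (π' : P' →ₗ[R] M) : Submodule R (P × P') :=
  LinearMap.eqLocus (π ∘ₗ LinearMap.fst R P P') (π' ∘ₗ LinearMap.snd R P P')

lemma mem_fibreProd {π : P →ₗ[R] M} {π' : P' →ₗ[R] M} {x : P × P'} :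
    x ∈ fibreProd π π' ↔ π x.1 = π' x.2 := Iff.rfl

/-- first projection of the fibre product -/
def fibreFst (π : P →ₗ[R] M) (π' : P' →ₗ[R] M) : fibreProd π π' →ₗ[R] P :=
  LinearMap.fst R P P' ∘ₗ (fibreProd π π').subtype

/-- kernel of the first projection is `ker π'` -/
def kerFibreFstEquiv (π : P →ₗ[R] M) (π' : P' →ₗ[R] M) :
    LinearMap.ker (fibreFst π π') ≃ₗ[R] LinearMap.ker π' where
  toFun x := ⟨x.1.1.2, by
    have h1 : π x.1.1.1 = π' x.1.1.2 := x.1.2
    have h2 : x.1.1.1 = 0 := x.2
    rw [LinearMap.mem_ker, ← h1, h2, map_zero]⟩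
  map_add' x y := rfl
  map_smul' c x := rfl
  invFun y := ⟨⟨(0, y.1), by
    rw [mem_fibreProd]
    simp only [map_zero]
    exact (LinearMap.mem_ker.mp y.2).symm⟩, rfl⟩
  left_inv x := by
    have h2 : x.1.1.1 = 0 := x.2
    apply Subtype.ext
    apply Subtype.ext
    exact Prod.ext h2.symm rfl
  right_inv y := rfl

/-- the fibre product splits off `P` when `P` is projective and `π'` is onto -/
theorem nonempty_fibreProd_equiv [Module.Projective R P] (π : P →ₗ[R] M) (π' : P' →ₗ[R] M)
    (hπ' : Function.Surjective π') :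
    Nonempty (fibreProd π π' ≃ₗ[R] (LinearMap.ker π' × P)) := by
  -- a lift `t : P → P'` with `π' ∘ t = π`
  obtain ⟨t, ht⟩ := Module.projective_lifting_property π' π hπ'
  have ht' : ∀ p, π' (t p) = π p := fun p => LinearMap.congr_fun ht p
  let s : P →ₗ[R] fibreProd π π' :=
    LinearMap.codRestrict (fibreProd π π') (LinearMap.prod LinearMap.id t) (fun p => by
      rw [mem_fibreProd]
      simp [ht'])
  have hs : ∀ p, fibreFst π π' (s p) = p := fun p => rfl
  exact ⟨(equivKerProd (fibreFst π π') s hs).trans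
    (LinearEquiv.prodCongr (kerFibreFstEquiv π π') (LinearEquiv.refl R P))⟩

/-- swapping the factors of the fibre product -/
def fibreProdSwap (π : P →ₗ[R] M) (π' : P' →ₗ[R] M) : fibreProd π π' ≃ₗ[R] fibreProd π' π where
  toFun x := ⟨(x.1.2, x.1.1), by
    have h : π x.1.1 = π' x.1.2 := x.2
    rw [mem_fibreProd]
    exact h.symm⟩
  map_add' x y := rfl
  map_smul' c x := rfl
  invFun x := ⟨(x.1.2, x.1.1), by
    have h : π' x.1.1 = π x.1.2 := x.2
    rw [mem_fibreProd]
    exact h.symm⟩
  left_inv x := rfl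
  right_inv x := rfl

/-- **Schanuel's lemma**, kernel form. -/
theorem schanuel_ker [Module.Projective R P] [Module.Projective R P']
    (π : P →ₗ[R] M) (π' : P' →ₗ[R] M)
    (hπ : Function.Surjective π) (hπ' : Function.Surjective π') :
    Nonempty ((LinearMap.ker π × P') ≃ₗ[R] (LinearMap.ker π' × P)) := by
  obtain ⟨e₁⟩ := nonempty_fibreProd_equiv π π' hπ'
  obtain ⟨e₂⟩ := nonempty_fibreProd_equiv π' π hπ
  exact ⟨e₂.symm.trans ((fibreProdSwap π π').symm.trans e₁)⟩

/-- **Schanuel's lemma** (leaf H0a, exact skeleton statement, but universe-polymorphic and over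
any ring). -/
theorem schanuel [Module.Projective R P] [Module.Projective R P']
    (i : K →ₗ[R] P) (π : P →ₗ[R] M) (i' : K' →ₗ[R] P') (π' : P' →ₗ[R] M)
    (hi : Function.Injective i) (hπ : Function.Surjective π)
    (hex : LinearMap.range i = LinearMap.ker π)
    (hi' : Function.Injective i') (hπ' : Function.Surjective π')
    (hex' : LinearMap.range i' = LinearMap.ker π') :
    Nonempty ((K × P') ≃ₗ[R] (K' × P)) := by
  obtain ⟨e⟩ := schanuel_ker π π' hπ hπ'
  have eK : K ≃ₗ[R] LinearMap.ker π :=
    (LinearEquiv.ofInjective i hi).trans (LinearEquiv.ofEq _ _ hex)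
  have eK' : K' ≃ₗ[R] LinearMap.ker π' :=
    (LinearEquiv.ofInjective i' hi').trans (LinearEquiv.ofEq _ _ hex')
  exact ⟨(LinearEquiv.prodCongr eK (LinearEquiv.refl R P')).trans
    (e.trans (LinearEquiv.prodCongr eK'.symm (LinearEquiv.refl R P)))⟩

/-- **H0a**, verbatim statement of the HILB skeleton (`HilbSkel.schanuel`). -/
theorem schanuel_skel {R : Type u} [CommRing R] {K K' P P' M : Type u}
    [AddCommGroup K] [Module R K] [AddCommGroup K'] [Module R K']
    [AddCommGroup P] [Module R P] [AddCommGroup P'] [Module R P']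
    [AddCommGroup M] [Module R M] [Module.Projective R P] [Module.Projective R P']
    (i : K →ₗ[R] P) (π : P →ₗ[R] M) (i' : K' →ₗ[R] P') (π' : P' →ₗ[R] M)
    (hi : Function.Injective i) (hπ : Function.Surjective π) (hex : LinearMap.range i = LinearMap.ker π)
    (hi' : Function.Injective i') (hπ' : Function.Surjective π')
    (hex' : LinearMap.range i' = LinearMap.ker π') :
    Nonempty ((K × P') ≃ₗ[R] (K' × P)) :=
  schanuel i π i' π' hi hπ hex hi' hπ' hex'

end Fermat.Agent.S25.H311
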